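/-
S55 / TOP LEVEL SKELETON (captain).  The three top nodes.  `sorry` = owned by a block:
* `F1`  : helper176 (abstract core `Formal/F1Abs.lean`) + helper175 (instantiation)
* `F2`  : helper121
* `arithInput_exists` : assembly of LOC (T2, T3), UNITS (T1, T4), EXIST (T5)
The frozen statement follows from `F1 (F2 I)` by BRIDGE (helper81: `Bridge/Glue.lean`).
-/
import Fermat.Agent.S55.Formal.Contract

set_option autoImplicit false

namespace Fermat.Agent.S55

variable {S : Finset Nat.Primes} {p : ℕ} [Fact p.Prime]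

/-- THEOREM F1. -/
theorem F1 (hS : S.Nonempty) (C : Contract S p) (M : Type) [AddCommGroup M] [DistribMulAction GQ M]
    (hM : IsCoef S p M) :
    Finite (Sha S M 2) ∧ Nat.card (Sha S M 2) = Nat.card (Sha S (HomMod M (Mu p)) 1) := sorry

/-- THEOREM F2. -/
theorem F2 (I : ArithInput S p) : Nonempty (Contract S p) := sorry

/-- The arithmetic input. -/
theorem arithInput_exists (hp2 : p ≠ 2) (hpS : ExtCitation.pPrime p ∈ S) :
    Nonempty (ArithInput S p) := sorry

/-- What BRIDGE consumes. -/
theorem card_Sha (hp2 : p ≠ 2) (hpS : ExtCitation.pPrime p ∈ S)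
    (M : Type) [AddCommGroup M] [DistribMulAction GQ M] (hM : IsCoef S p M) :
    Finite (Sha S M 2) ∧ Nat.card (Sha S M 2) = Nat.card (Sha S (HomMod M (Mu p)) 1) := by
  obtain ⟨I⟩ := arithInput_exists (S := S) hp2 hpS
  obtain ⟨C⟩ := F2 I
  exact F1 ⟨_, hpS⟩ C M hM

end Fermat.Agent.S55
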